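import Mathlib

/-!
# Discriminants all of whose forms represent one

If a prime represented by a positive form of discriminant `D` is `(u² - D k²) / 4`, the form
represents `1`. Of the discriminants `f² δ`, `δ` one of the nine fundamental discriminants of
class number one, only thirteen have all their primitive forms representing `1`.
-/

set_option autoImplicit false

namespace FA.ThirteenOrders

/-- The form `A x² + B x y + C y²` represents `1`. -/
def RepOne (A B C : ℤ) : Prop := ∃ x y : ℤ, A * x ^ 2 + B * x * y + C * y ^ 2 = 1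

/-- Every primitive positive form of discriminant `D` represents `1`. -/
def AllOne (D : ℤ) : Prop :=
  ∀ A B C : ℤ, 0 < A → B ^ 2 - 4 * A * C = D → Int.gcd (Int.gcd A B) C = 1 → RepOne A B C

/-- The thirteen discriminants. -/
def thirteen : Finset ℤ := {-3, -4, -7, -8, -11, -12, -16, -19, -27, -28, -43, -67, -163}

/-- The nine fundamental discriminants. -/
def nine : Finset ℤ := {-3, -4, -7, -8, -11, -19, -43, -67, -163}

/-- A form is primitive iff no prime divides its three coefficients. -/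
theorem primitive_iff {A B C : ℤ} : Int.gcd (Int.gcd A B) C = 1 ↔
    ∀ q : ℕ, q.Prime → (q : ℤ) ∣ A → (q : ℤ) ∣ B → ¬ (q : ℤ) ∣ C := by
  refine ⟨fun h q hq ha hb hc => ?_, fun h => ?_⟩
  · have : (q : ℤ) ∣ (Int.gcd (Int.gcd A B) C : ℤ) := Int.dvd_coe_gcd (Int.dvd_coe_gcd ha hb) hc
    rw [h, Nat.cast_one] at this
    exact hq.ne_one (by exact_mod_cast Int.eq_one_of_dvd_one (Int.natCast_nonneg q) this)
  · by_contra hne
    obtain ⟨q, hq, hqd⟩ := Nat.exists_prime_and_dvd hne
    have e := Int.natCast_dvd_natCast.mpr hqd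
    exact h q hq ((e.trans (Int.gcd_dvd_left _ _)).trans (Int.gcd_dvd_left _ _))
      ((e.trans (Int.gcd_dvd_left _ _)).trans (Int.gcd_dvd_right _ _))
      (e.trans (Int.gcd_dvd_right _ _))

/-- **A prime of a form and of the principal form**: the form represents `1`. -/
theorem repOne_of_prime {A B C D : ℤ} (hD : B ^ 2 - 4 * A * C = D) {l : ℕ} (hl : l.Prime)
    {x y : ℤ} (hQ : A * x ^ 2 + B * x * y + C * y ^ 2 = l) {u k : ℤ}
    (hu : u ^ 2 - D * k ^ 2 = 4 * l) : RepOne A B C := by
  have hli : Prime (l : ℤ) := Nat.prime_iff_prime_int.mp hl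
  -- the variables are coprime
  obtain ⟨w, z, hwz⟩ : IsCoprime x y := by
    rw [Int.isCoprime_iff_gcd_eq_one]
    by_contra hne
    obtain ⟨q, hq, hqd⟩ := Nat.exists_prime_and_dvd hne
    have hqx : (q : ℤ) ∣ x := (Int.natCast_dvd_natCast.mpr hqd).trans (Int.gcd_dvd_left x y)
    have hqy : (q : ℤ) ∣ y := (Int.natCast_dvd_natCast.mpr hqd).trans (Int.gcd_dvd_right x y)
    obtain ⟨x', rfl⟩ := hqx
    obtain ⟨y', rfl⟩ := hqy
    have h2 : q * q ∣ l := Int.natCast_dvd_natCast.mp
      ⟨A * x' ^ 2 + B * x' * y' + C * y' ^ 2, by rw [← hQ]; push_cast; ring⟩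
    rcases (Nat.dvd_prime hl).mp h2 with h | h
    · exact hq.ne_one (Nat.eq_one_of_mul_eq_one_left h)
    · rcases (Nat.dvd_prime hl).mp (⟨q, h.symm⟩ : q ∣ l) with h' | h'
      · exact hq.ne_one h'
      · rw [h'] at h
        have := hl.two_le
        nlinarith
  -- the equivalent form `l X² + B' X Y + C' Y²`
  set z' := -z with hz'
  set B' := 2 * A * x * z' + B * (x * w + y * z') + 2 * C * y * w with hB'
  set C' := A * z' ^ 2 + B * z' * w + C * w ^ 2 with hC'
  have hdet : x * w - y * z' = 1 := by rw [hz']; linear_combination hwz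
  have hD' : B' ^ 2 - 4 * (l : ℤ) * C' = D := by
    rw [hB', hC', ← hQ, ← hD]
    linear_combination (B ^ 2 - 4 * A * C) * (x * w - y * z' + 1) * hdet
  suffices H : ∃ X Y : ℤ, (l : ℤ) * X ^ 2 + B' * X * Y + C' * Y ^ 2 = 1 by
    obtain ⟨X, Y, h⟩ := H
    exact ⟨x * X + z' * Y, y * X + w * Y, by rw [← h, hB', hC', ← hQ]; ring⟩
  have hsq : (u - B' * k) * (u + B' * k) = 4 * (l : ℤ) * (1 - C' * k ^ 2) := by
    linear_combination hu - k ^ 2 * hD'
  have heven : Even (u - B' * k) ∧ Even (u + B' * k) := by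
    have h1 : Even ((u - B' * k) * (u + B' * k)) :=
      ⟨2 * (l : ℤ) * (1 - C' * k ^ 2), by rw [hsq]; ring⟩
    rcases Int.even_mul.mp h1 with ⟨i, hi⟩ | ⟨i, hi⟩
    · exact ⟨⟨i, hi⟩, ⟨i + B' * k, by linarith⟩⟩
    · exact ⟨⟨i - B' * k, by linarith⟩, ⟨i, hi⟩⟩
  obtain ⟨⟨i, hi⟩, ⟨j, hj⟩⟩ := heven
  have hij : i * j = (l : ℤ) * (1 - C' * k ^ 2) := by
    rw [hi, hj] at hsq
    linarith
  have hl0 : (l : ℤ) ≠ 0 := by exact_mod_cast hl.ne_zero
  rcases hli.dvd_or_dvd (⟨_, hij⟩ : (l : ℤ) ∣ i * j) with ⟨X, rfl⟩ | ⟨X, rfl⟩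
  · refine ⟨X, k, mul_left_cancel₀ (mul_ne_zero four_ne_zero hl0) ?_⟩
    have hu' : u = B' * k + 2 * (l : ℤ) * X := by linarith
    rw [hu'] at hu
    linear_combination hu - k ^ 2 * hD'
  · refine ⟨X, -k, mul_left_cancel₀ (mul_ne_zero four_ne_zero hl0) ?_⟩
    have hu' : u = 2 * (l : ℤ) * X - B' * k := by linarith
    rw [hu'] at hu
    linear_combination hu - k ^ 2 * hD'

/-- A form with `A ≥ 2` and `4 A < |D|` does not represent `1`. -/
theorem not_repOne {A B C D : ℤ} (hD : B ^ 2 - 4 * A * C = D) (hA : 2 ≤ A) (hlt : 4 * A < -D) :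
    ¬ RepOne A B C := by
  rintro ⟨x, y, h⟩
  have e : 4 * A = (2 * A * x + B * y) ^ 2 - D * y ^ 2 := by
    rw [← hD]; linear_combination -4 * A * h
  rcases eq_or_ne y 0 with rfl | hy
  · have h' : A * x ^ 2 = 1 := by linarith
    have h1 : A ∣ 1 := ⟨x ^ 2, h'.symm⟩
    have := Int.le_of_dvd one_pos h1
    omega
  · have hy2 : 0 < y ^ 2 := by positivity
    nlinarith [sq_nonneg (2 * A * x + B * y)]

/-- A witness form. -/
theorem not_allOne {A B C D : ℤ} (hD : B ^ 2 - 4 * A * C = D) (hA : 2 ≤ A) (hlt : 4 * A < -D)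
    (hprim : Int.gcd (Int.gcd A B) C = 1) : ¬ AllOne D := fun h =>
  not_repOne hD hA hlt (h A B C (by omega) hD hprim)

/-- The witness at a prime conductor from a small split prime. -/
theorem not_allOne_prime {δ B₀ C₀ : ℤ} {r q : ℕ} (hr : r.Prime) (hq : q.Prime) (hqr : q ≠ r)
    (hδ : B₀ ^ 2 - 4 * (r : ℤ) * C₀ = δ) (hB₀ : ¬ (r : ℤ) ∣ B₀)
    (hlt : 4 * (r : ℤ) < -((q : ℤ) ^ 2 * δ)) : ¬ AllOne ((q : ℤ) ^ 2 * δ) := by
  refine not_allOne (A := (r : ℤ)) (B := q * B₀) (C := (q : ℤ) ^ 2 * C₀) ?_ ?_ hlt ?_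
  · rw [← hδ]; ring
  · exact_mod_cast hr.two_le
  · have hcop : Int.gcd (r : ℤ) (q * B₀) = 1 := by
      rw [Int.gcd, Int.natAbs_natCast]
      refine (hr.coprime_iff_not_dvd).mpr fun h => ?_
      rw [← Int.natCast_dvd] at h
      rcases (Nat.prime_iff_prime_int.mp hr).dvd_or_dvd h with h' | h'
      · exact hqr ((Nat.prime_dvd_prime_iff_eq hr hq).mp (Int.natCast_dvd_natCast.mp h')).symm
      · exact hB₀ h'
    rw [hcop]
    exact Int.one_gcd

/-- A prime conductor is allowed for three discriminants only. -/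
theorem prime_conductor {δ : ℤ} (hδ : δ ∈ nine) {q : ℕ} (hq : q.Prime)
    (h : AllOne ((q : ℤ) ^ 2 * δ)) :
    (δ = -3 ∧ (q = 2 ∨ q = 3)) ∨ (δ = -4 ∧ q = 2) ∨ (δ = -7 ∧ q = 2) := by
  have hq2 : (2 : ℤ) ≤ q := by exact_mod_cast hq.two_le
  have hq3 : q ≠ 2 → (9 : ℤ) ≤ (q : ℤ) ^ 2 := fun h2 => by
    have h3 : 3 ≤ q := by have := hq.two_le; omega
    have : (3 : ℤ) ≤ q := by exact_mod_cast h3
    nlinarith
  have hq5 : q ≠ 2 → q ≠ 3 → (25 : ℤ) ≤ (q : ℤ) ^ 2 := fun h2 h3 => by
    have h4 : q ≠ 4 := by rintro rfl; norm_num at hq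
    have h5 : 5 ≤ q := by have := hq.two_le; omega
    have : (5 : ℤ) ≤ q := by exact_mod_cast h5
    nlinarith
  simp only [nine, Finset.mem_insert, Finset.mem_singleton] at hδ
  rcases hδ with rfl | rfl | rfl | rfl | rfl | rfl | rfl | rfl | rfl
  · by_cases h2 : q = 2 ∨ q = 3
    · exact Or.inl ⟨rfl, h2⟩
    push Not at h2
    by_cases h7 : q = 7
    · subst h7
      exact absurd h (not_allOne (A := 3) (B := -3) (C := 13) (by norm_num) (by norm_num)
        (by norm_num) (by decide))
    · exact absurd h (not_allOne_prime (r := 7) (B₀ := 5) (C₀ := 1) (by norm_num) hq h7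
        (by norm_num) (by decide) (by have := hq5 h2.1 h2.2; push_cast; linarith))
  · by_cases h2 : q = 2
    · exact Or.inr (Or.inl ⟨rfl, h2⟩)
    by_cases h5 : q = 5
    · subst h5
      exact absurd h (not_allOne (A := 2) (B := -2) (C := 13) (by norm_num) (by norm_num)
        (by norm_num) (by decide))
    · exact absurd h (not_allOne_prime (r := 5) (B₀ := 4) (C₀ := 1) (by norm_num) hq h5
        (by norm_num) (by decide) (by have := hq3 h2; push_cast; linarith))
  · by_cases h2 : q = 2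
    · exact Or.inr (Or.inr ⟨rfl, h2⟩)
    exact absurd h (not_allOne_prime (r := 2) (B₀ := 1) (C₀ := 1) (by norm_num) hq h2
      (by norm_num) (by decide) (by have := hq3 h2; push_cast; linarith))
  · by_cases h3 : q = 3
    · subst h3
      exact absurd h (not_allOne (A := 2) (B := 0) (C := 9) (by norm_num) (by norm_num)
        (by norm_num) (by decide))
    exact absurd h (not_allOne_prime (r := 3) (B₀ := 2) (C₀ := 1) (by norm_num) hq h3
      (by norm_num) (by decide) (by push_cast; nlinarith))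
  · by_cases h3 : q = 3
    · subst h3
      exact absurd h (not_allOne (A := 5) (B := -1) (C := 5) (by norm_num) (by norm_num)
        (by norm_num) (by decide))
    exact absurd h (not_allOne_prime (r := 3) (B₀ := 1) (C₀ := 1) (by norm_num) hq h3
      (by norm_num) (by decide) (by push_cast; nlinarith))
  · by_cases h5 : q = 5
    · subst h5
      exact absurd h (not_allOne (A := 7) (B := -1) (C := 17) (by norm_num) (by norm_num)
        (by norm_num) (by decide))
    exact absurd h (not_allOne_prime (r := 5) (B₀ := 1) (C₀ := 1) (by norm_num) hq h5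
      (by norm_num) (by decide) (by push_cast; nlinarith))
  · by_cases h11 : q = 11
    · subst h11
      exact absurd h (not_allOne (A := 13) (B := -7) (C := 101) (by norm_num) (by norm_num)
        (by norm_num) (by decide))
    exact absurd h (not_allOne_prime (r := 11) (B₀ := 1) (C₀ := 1) (by norm_num) hq h11
      (by norm_num) (by decide) (by push_cast; nlinarith))
  · by_cases h17 : q = 17
    · subst h17
      exact absurd h (not_allOne (A := 19) (B := -13) (C := 257) (by norm_num) (by norm_num)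
        (by norm_num) (by decide))
    exact absurd h (not_allOne_prime (r := 17) (B₀ := 1) (C₀ := 1) (by norm_num) hq h17
      (by norm_num) (by decide) (by push_cast; nlinarith))
  · by_cases h41 : q = 41
    · subst h41
      exact absurd h (not_allOne (A := 43) (B := -37) (C := 1601) (by norm_num) (by norm_num)
        (by norm_num) (by decide))
    exact absurd h (not_allOne_prime (r := 41) (B₀ := 1) (C₀ := 1) (by norm_num) hq h41
      (by norm_num) (by decide) (by push_cast; nlinarith))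

/-- **The conductors**: if all forms of `g² δ` represent `1` for each divisor `g` of `f`, then
`f² δ` is one of the thirteen. -/
theorem mem_thirteen {δ : ℤ} (hδ : δ ∈ nine) {f : ℕ} (hf : f ≠ 0)
    (h : ∀ g : ℕ, g ∣ f → AllOne ((g : ℤ) ^ 2 * δ)) : (f : ℤ) ^ 2 * δ ∈ thirteen := by
  have hp : ∀ q, q.Prime → q ∣ f →
      (δ = -3 ∧ (q = 2 ∨ q = 3)) ∨ (δ = -4 ∧ q = 2) ∨ (δ = -7 ∧ q = 2) :=
    fun q hq hqf => prime_conductor hδ hq (h q hqf)
  by_cases h1 : f = 1
  · subst h1
    simp only [nine, thirteen, Finset.mem_insert, Finset.mem_singleton] at hδ ⊢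
    omega
  obtain ⟨q, hq, hqf⟩ := Nat.exists_prime_and_dvd h1
  -- the forbidden divisors
  have h4 : ¬ 4 ∣ f := fun h4 => by
    rcases hp 2 Nat.prime_two ((by norm_num : 2 ∣ 4).trans h4) with ⟨rfl, -⟩ | ⟨rfl, -⟩ | ⟨rfl, -⟩
    · exact not_allOne (A := 3) (B := 0) (C := 4) (by norm_num) (by norm_num) (by norm_num)
        (by decide) (h 4 h4)
    · exact not_allOne (A := 4) (B := -4) (C := 5) (by norm_num) (by norm_num) (by norm_num)
        (by decide) (h 4 h4)
    · exact not_allOne (A := 4) (B := 0) (C := 7) (by norm_num) (by norm_num) (by norm_num)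
        (by decide) (h 4 h4)
  have h6 : ¬ 6 ∣ f := fun h6 => by
    rcases hp 3 Nat.prime_three ((by norm_num : 3 ∣ 6).trans h6) with ⟨rfl, -⟩ | ⟨-, e⟩ | ⟨-, e⟩
    · exact not_allOne (A := 4) (B := -2) (C := 7) (by norm_num) (by norm_num) (by norm_num)
        (by decide) (h 6 h6)
    · omega
    · omega
  have h9 : ¬ 9 ∣ f := fun h9 => by
    rcases hp 3 Nat.prime_three ((by norm_num : 3 ∣ 9).trans h9) with ⟨rfl, -⟩ | ⟨-, e⟩ | ⟨-, e⟩
    · exact not_allOne (A := 7) (B := -3) (C := 9) (by norm_num) (by norm_num) (by norm_num)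
        (by decide) (h 9 h9)
    · omega
    · omega
  obtain ⟨m, rfl⟩ := hqf
  have hm : m = 1 := by
    by_contra hm
    obtain ⟨q', hq', hq'm⟩ := Nat.exists_prime_and_dvd hm
    have hq23 : q = 2 ∨ q = 3 := by
      rcases hp q hq (dvd_mul_right q m) with ⟨-, e⟩ | ⟨-, e⟩ | ⟨-, e⟩ <;> omega
    have hq23' : q' = 2 ∨ q' = 3 := by
      rcases hp q' hq' (hq'm.mul_left q) with ⟨-, e⟩ | ⟨-, e⟩ | ⟨-, e⟩ <;> omega
    have hd : q * q' ∣ q * m := mul_dvd_mul_left q hq'm
    rcases hq23 with rfl | rfl <;> rcases hq23' with rfl | rfl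
    · exact h4 hd
    · exact h6 hd
    · exact h6 (by simpa using hd)
    · exact h9 hd
  subst hm
  rcases hp q hq (dvd_mul_right q 1) with ⟨rfl, rfl | rfl⟩ | ⟨rfl, rfl⟩ | ⟨rfl, rfl⟩ <;>
    norm_num [thirteen]

/-- **Reduction**: in the thirteen discriminants every primitive positive form represents `1`. -/
theorem allOne_of_mem {D : ℤ} (hD : D ∈ thirteen) : AllOne D := by
  have hlow : -163 ≤ D ∧ D < 0 := by
    simp only [thirteen, Finset.mem_insert, Finset.mem_singleton] at hD
    omega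
  -- no reduced primitive form with first coefficient above one
  have key : ∀ E ∈ thirteen, ∀ a ∈ Finset.Icc (2 : ℤ) 7, ∀ b ∈ Finset.Icc (-7 : ℤ) 7,
      |b| ≤ a → (b ^ 2 - E) % (4 * a) = 0 → a ≤ (b ^ 2 - E) / (4 * a) →
      Int.gcd (Int.gcd a b) ((b ^ 2 - E) / (4 * a)) ≠ 1 := by decide +kernel
  intro A
  generalize hn : A.natAbs = n
  induction n using Nat.strong_induction_on generalizing A with
  | _ n ih =>
    intro B C hA hdisc hprim
    subst hn
    have hC : 0 < C := by
      by_contra hC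
      nlinarith [sq_nonneg B, mul_nonneg hA.le (neg_nonneg.mpr (not_lt.mp hC))]
    -- bring the middle coefficient between `-A` and `A`
    set t := (A - B) / (2 * A) with ht
    set B' := B + 2 * A * t with hB'
    set C' := A * t ^ 2 + B * t + C with hC'
    have h1 := Int.emod_add_mul_ediv (A - B) (2 * A)
    rw [← ht] at h1
    have h2 := Int.emod_nonneg (A - B) (show 2 * A ≠ 0 by omega)
    have h3 := Int.emod_lt_of_pos (A - B) (show 0 < 2 * A by omega)
    have hbound : |B'| ≤ A := abs_le.mpr ⟨by rw [hB']; linarith, by rw [hB']; linarith⟩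
    have hdisc' : B' ^ 2 - 4 * A * C' = D := by rw [hB', hC', ← hdisc]; ring
    have hprim' : Int.gcd (Int.gcd A B') C' = 1 := primitive_iff.mpr fun q hq da db dc => by
      have db' : (q : ℤ) ∣ B := by
        rw [show B = B' - 2 * A * t by rw [hB']; ring]
        exact dvd_sub db ((da.mul_left 2).mul_right t)
      refine primitive_iff.mp hprim q hq da db' ?_
      rw [show C = C' - (A * t ^ 2 + B * t) by rw [hC']; ring]
      exact dvd_sub dc (dvd_add (da.mul_right _) (db'.mul_right _))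
    suffices H : RepOne A B' C' by
      obtain ⟨x, y, h⟩ := H
      exact ⟨x + t * y, y, by rw [← h, hB', hC']; ring⟩
    rcases eq_or_lt_of_le (show (1 : ℤ) ≤ A from hA) with h | h
    · exact ⟨1, 0, by rw [← h]; ring⟩
    rcases lt_or_ge C' A with hlt | hge
    · have hC'0 : 0 < C' := by
        by_contra hc
        nlinarith [sq_nonneg B', mul_nonneg hA.le (neg_nonneg.mpr (not_lt.mp hc))]
      obtain ⟨x, y, hr⟩ := ih C'.natAbs (by omega) C' rfl (-B') A hC'0
        (by rw [← hdisc']; ring) (primitive_iff.mpr fun q hq dc db da =>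
          primitive_iff.mp hprim' q hq da (dvd_neg.mp db) dc)
      exact ⟨-y, x, by rw [← hr]; ring⟩
    · exfalso
      have hsq : B' ^ 2 ≤ A ^ 2 := by
        have := sq_abs B'
        nlinarith [abs_nonneg B']
      have hA7 : A ≤ 7 := by nlinarith
      have hb := abs_le.mp hbound
      have hdiv : (B' ^ 2 - D) / (4 * A) = C' := by
        rw [show B' ^ 2 - D = 4 * A * C' by linarith, Int.mul_ediv_cancel_left _ (by omega)]
      refine key D hD A (Finset.mem_Icc.mpr ⟨by omega, hA7⟩) B'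
        (Finset.mem_Icc.mpr ⟨by omega, by omega⟩) hbound ?_ (by rw [hdiv]; exact hge)
        (by rw [hdiv]; exact hprim')
      rw [show B' ^ 2 - D = 4 * A * C' by linarith, Int.mul_emod_right]

end FA.ThirteenOrders
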