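import Fermat.Agent.Mazur.Wp.Curve
import Fermat.Agent.ThirteenOrders.Forms

/-!
# Quadratic points and the multipliers of their lattices

For a root `τ` of a primitive form `A x² + B x + C` the multipliers of `ℤ τ + ℤ` are
`ℤ + ℤ A τ`; so equivalent points have the same discriminant, and if every form of that
discriminant represents `1` all its roots are equivalent.
-/

set_option autoImplicit false

noncomputable section

namespace FA.ThirteenOrders

open UpperHalfPlane hiding I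
open FA.Mazur.Wp
open scoped MatrixGroups UpperHalfPlane

/-- `τ` is the root of a primitive positive form `A x² + B x + C`. -/
structure IsRootOf (τ : ℍ) (A B C : ℤ) : Prop where
  pos : 0 < A
  prim : Int.gcd (Int.gcd A B) C = 1
  eq : (A : ℂ) * (τ : ℂ) ^ 2 + B * τ + C = 0

variable {τ τ' : ℍ} {A B C A' B' C' : ℤ}

namespace IsRootOf

/-- `2 A τ + B`, a square root of the discriminant. -/
theorem sq (h : IsRootOf τ A B C) :
    (2 * (A : ℂ) * τ + B) ^ 2 = ((B ^ 2 - 4 * A * C : ℤ) : ℂ) := by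
  push_cast
  linear_combination 4 * (A : ℂ) * h.eq

theorem im_pos (h : IsRootOf τ A B C) : 0 < (2 * (A : ℂ) * τ + B).im := by
  have hA : (0 : ℝ) < (A : ℝ) := by exact_mod_cast h.pos
  simp only [Complex.add_im, Complex.mul_im, Complex.mul_re, Complex.intCast_im,
    Complex.intCast_re, Complex.re_ofNat, Complex.im_ofNat]
  norm_num
  exact mul_pos (mul_pos two_pos hA) τ.im_pos

theorem re_eq_zero (h : IsRootOf τ A B C) : (2 * (A : ℂ) * τ + B).re = 0 := by
  have h2 := congrArg Complex.im h.sq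
  rw [pow_two, Complex.mul_im, Complex.intCast_im] at h2
  have h3 : (2 * (A : ℂ) * τ + B).re * (2 * (A : ℂ) * τ + B).im = 0 := by linarith
  exact (mul_eq_zero.mp h3).resolve_right h.im_pos.ne'

/-- The discriminant is negative. -/
theorem disc_neg (h : IsRootOf τ A B C) : B ^ 2 - 4 * A * C < 0 := by
  have h2 := congrArg Complex.re h.sq
  rw [pow_two, Complex.mul_re, h.re_eq_zero, Complex.intCast_re] at h2
  have h3 := mul_pos h.im_pos h.im_pos
  have : ((B ^ 2 - 4 * A * C : ℤ) : ℝ) < 0 := by linarith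
  exact_mod_cast this

theorem C_pos (h : IsRootOf τ A B C) : 0 < C := by
  by_contra hC
  nlinarith [h.disc_neg, sq_nonneg B, mul_nonneg h.pos.le (neg_nonneg.mpr (not_lt.mp hC))]

/-- Points with the same discriminant have the same `2 A τ + B`. -/
theorem root_eq (h : IsRootOf τ A B C) (h' : IsRootOf τ' A' B' C')
    (hD : B ^ 2 - 4 * A * C = B' ^ 2 - 4 * A' * C') :
    2 * (A : ℂ) * τ + B = 2 * (A' : ℂ) * τ' + B' := by
  rcases sq_eq_sq_iff_eq_or_eq_neg.mp (h.sq.trans ((congrArg _ hD).trans h'.sq.symm)) with e | e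
  · exact e
  · have := congrArg Complex.im e
    rw [Complex.neg_im] at this
    linarith [h.im_pos, h'.im_pos]

/-- The lattice is stable under `A τ`. -/
theorem stable (h : IsRootOf τ A B C) :
    ∀ l ∈ (latPair τ).lattice, (A : ℂ) * τ * l ∈ (latPair τ).lattice := fun l hl => by
  obtain ⟨m, n, rfl⟩ := mem_latPair.1 hl
  refine mem_latPair.2 ⟨n * A - m * B, -m * C, ?_⟩
  push_cast
  linear_combination -(m : ℂ) * h.eq

/-- `(A τ)² + B (A τ) + A C = 0`. -/
theorem poly (h : IsRootOf τ A B C) :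
    ((A : ℂ) * τ) ^ 2 - ((-B : ℤ) : ℂ) * ((A : ℂ) * τ) + ((A * C : ℤ) : ℂ) = 0 := by
  push_cast
  linear_combination (A : ℂ) * h.eq

end IsRootOf

/-- Coordinates in `ℤ τ + ℤ`, also over `ℚ`. -/
theorem coord_zero {m n : ℤ} (h : (m : ℂ) * τ + n = 0) : m = 0 ∧ n = 0 := by
  have h1 := congrArg Complex.im h
  simp [τ.im_pos.ne'] at h1
  subst h1
  simpa using h

/-- **The multipliers** of the lattice of a root are `ℤ + ℤ A τ`. -/
theorem IsRootOf.mem_stabiliser (h : IsRootOf τ A B C) {x : ℂ}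
    (hx : ∀ l ∈ (latPair τ).lattice, x * l ∈ (latPair τ).lattice) :
    ∃ m k : ℤ, x = m + k * ((A : ℂ) * τ) := by
  obtain ⟨n, m, hn⟩ := mem_latPair.1 (hx 1 (mem_latPair.2 ⟨0, 1, by simp⟩))
  obtain ⟨p, q, hp⟩ := mem_latPair.1 (hx τ (mem_latPair.2 ⟨1, 0, by simp⟩))
  rw [mul_one] at hn
  obtain ⟨e1, e2⟩ := coord_zero (τ := τ) (m := A * p + n * B - A * m) (n := A * q + n * C) (by
    push_cast
    rw [← hn] at hp
    linear_combination (A : ℂ) * hp + (n : ℂ) * h.eq)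
  obtain ⟨u, v, w, hb⟩ : ∃ u v w : ℤ, u * A + v * B + w * C = 1 := by
    have h1 := Int.gcd_eq_gcd_ab (Int.gcd A B : ℤ) C
    have h2 := Int.gcd_eq_gcd_ab A B
    rw [h.prim, Nat.cast_one] at h1
    exact ⟨Int.gcdA A B * Int.gcdA (Int.gcd A B : ℤ) C, Int.gcdB A B * Int.gcdA (Int.gcd A B : ℤ) C,
      Int.gcdB (Int.gcd A B : ℤ) C,
      by linear_combination -h1 - Int.gcdA (Int.gcd A B : ℤ) C * h2⟩
  refine ⟨m, u * n + v * (m - p) - w * q, ?_⟩
  rw [← hn]
  have e : A * (u * n + v * (m - p) - w * q) = n := by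
    linear_combination n * hb - v * e1 - w * e2
  have e' : (A : ℂ) * ((u * n + v * (m - p) - w * q : ℤ) : ℂ) = n := by exact_mod_cast e
  linear_combination -(τ : ℂ) * e'

/-- **A lattice with a nonreal multiplier** comes from a primitive form. -/
theorem exists_isRootOf {x : ℂ} (hx : x.im ≠ 0)
    (hst : ∀ l ∈ (latPair τ).lattice, x * l ∈ (latPair τ).lattice) :
    ∃ A B C : ℤ, IsRootOf τ A B C := by
  obtain ⟨n, m, hn⟩ := mem_latPair.1 (hst 1 (mem_latPair.2 ⟨0, 1, by simp⟩))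
  obtain ⟨p, q, hp⟩ := mem_latPair.1 (hst τ (mem_latPair.2 ⟨1, 0, by simp⟩))
  rw [mul_one] at hn
  have hn0 : n ≠ 0 := by
    rintro rfl
    exact hx (by rw [← hn]; simp)
  have heq : (n : ℂ) * (τ : ℂ) ^ 2 + ((m - p : ℤ) : ℂ) * τ + ((-q : ℤ) : ℂ) = 0 := by
    push_cast
    rw [← hn] at hp
    linear_combination -hp
  set g : ℤ := (Int.gcd (Int.gcd n (m - p)) (-q) : ℤ) with hg
  have hg0 : g ≠ 0 := by simp [hg, Int.gcd_eq_zero_iff, hn0]
  obtain ⟨a, ha⟩ : g ∣ n := (Int.gcd_dvd_left _ _).trans (Int.gcd_dvd_left _ _)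
  obtain ⟨b, hb⟩ : g ∣ m - p := (Int.gcd_dvd_left _ _).trans (Int.gcd_dvd_right _ _)
  obtain ⟨c, hc⟩ : g ∣ -q := Int.gcd_dvd_right _ _
  have heq' : (a : ℂ) * (τ : ℂ) ^ 2 + (b : ℂ) * τ + c = 0 := by
    rw [ha, hb, hc] at heq
    push_cast at heq
    apply mul_left_cancel₀ (Int.cast_ne_zero.mpr hg0 : (g : ℂ) ≠ 0)
    linear_combination heq
  have hprim : Int.gcd (Int.gcd a b) c = 1 := primitive_iff.mpr fun r hr h1 h2 h3 => by
    have d1 : g * r ∣ n := ha ▸ mul_dvd_mul_left g h1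
    have d2 : g * r ∣ m - p := hb ▸ mul_dvd_mul_left g h2
    have d3 : g * r ∣ -q := hc ▸ mul_dvd_mul_left g h3
    have h4 : g * r ∣ g := hg ▸ Int.dvd_coe_gcd (Int.dvd_coe_gcd d1 d2) d3
    have h5 : (r : ℤ) ∣ 1 := (mul_dvd_mul_iff_left hg0).mp (by rwa [mul_one])
    exact hr.ne_one (by exact_mod_cast Int.eq_one_of_dvd_one (Int.natCast_nonneg r) h5)
  rcases lt_trichotomy a 0 with h | h | h
  · exact ⟨-a, -b, -c, neg_pos.mpr h, by simpa [Int.neg_gcd, Int.gcd_neg] using hprim,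
      by push_cast; linear_combination -heq'⟩
  · exact absurd (by rw [ha, h, mul_zero]) hn0
  · exact ⟨a, b, c, h, hprim, heq'⟩

/-- Each lattice stable under the other's multiplier: equal discriminants. -/
theorem IsRootOf.disc_eq (h : IsRootOf τ A B C) (h' : IsRootOf τ' A' B' C')
    (h1 : ∀ l ∈ (latPair τ').lattice, (A : ℂ) * τ * l ∈ (latPair τ').lattice)
    (h2 : ∀ l ∈ (latPair τ).lattice, (A' : ℂ) * τ' * l ∈ (latPair τ).lattice) :
    B ^ 2 - 4 * A * C = B' ^ 2 - 4 * A' * C' := by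
  set w := 2 * (A : ℂ) * τ + B with hw
  set w' := 2 * (A' : ℂ) * τ' + B' with hw'
  obtain ⟨m, k, hm⟩ := h'.mem_stabiliser h1
  obtain ⟨m', k', hm'⟩ := h.mem_stabiliser h2
  have e : w = ((2 * m + B - k * B' : ℤ) : ℂ) + (k : ℂ) * w' := by
    rw [hw, hw']; push_cast; linear_combination 2 * hm
  have e' : w' = ((2 * m' + B' - k' * B : ℤ) : ℂ) + (k' : ℂ) * w := by
    rw [hw, hw']; push_cast; linear_combination 2 * hm'
  have r0 := congrArg Complex.re e
  have r0' := congrArg Complex.re e'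
  simp only [Complex.add_re, Complex.mul_re, Complex.intCast_re, Complex.intCast_im, zero_mul,
    sub_zero, hw, hw', h.re_eq_zero, h'.re_eq_zero, mul_zero, add_zero] at r0 r0'
  rw [show (2 * m + B - k * B' : ℤ) = 0 by exact_mod_cast r0.symm, Int.cast_zero, zero_add] at e
  rw [show (2 * m' + B' - k' * B : ℤ) = 0 by exact_mod_cast r0'.symm, Int.cast_zero, zero_add] at e'
  have hne : w ≠ 0 := fun hz => h.im_pos.ne' (by rw [← hw, hz, Complex.zero_im])
  have hkk : (k : ℂ) * k' = 1 := mul_right_cancel₀ hne (by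
    rw [one_mul, mul_assoc, ← e', ← e])
  have hk : k * k' = 1 := by exact_mod_cast hkk
  have hk2 : k ^ 2 = 1 := by
    rcases Int.eq_one_or_neg_one_of_mul_eq_one' hk with ⟨e, -⟩ | ⟨e, -⟩ <;> rw [e] <;> norm_num
  have hsq := h.sq
  rw [← hw, e, mul_pow, show ((k : ℂ)) ^ 2 = 1 by exact_mod_cast hk2, one_mul, hw', h'.sq] at hsq
  exact_mod_cast hsq.symm

/-- **Equivalent points have the same discriminant.** -/
theorem IsRootOf.disc_eq_of_smul (h : IsRootOf τ A B C) (h' : IsRootOf τ' A' B' C') {g : SL(2, ℤ)}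
    (hg : g • τ = τ') : B ^ 2 - 4 * A * C = B' ^ 2 - 4 * A' * C' := by
  subst hg
  refine h.disc_eq h' (fun l hl => ?_) fun l hl => ?_
  · rw [mem_latPair_smul] at hl ⊢
    rw [mul_assoc]
    exact h.stable _ hl
  · have h0 : l * (den g τ)⁻¹ ∈ (latPair (g • τ)).lattice := by
      rw [mem_latPair_smul, inv_mul_cancel_right₀ (den_ne_zero g τ)]
      exact hl
    have h1 := h'.stable _ h0
    rw [mem_latPair_smul, mul_assoc, inv_mul_cancel_right₀ (den_ne_zero g τ)] at h1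
    exact h1

/-- A form representing `1` has its root equivalent to a root of a monic form. -/
theorem IsRootOf.exists_monic (h : IsRootOf τ A B C) (h1 : RepOne A B C) :
    ∃ (g : SL(2, ℤ)) (B₁ C₁ : ℤ), IsRootOf (g • τ) 1 B₁ C₁ ∧
      B₁ ^ 2 - 4 * C₁ = B ^ 2 - 4 * A * C := by
  obtain ⟨x, y, hxy⟩ := h1
  -- any completion of `(x, y)` to a matrix of determinant one will do
  obtain ⟨u, v, huv⟩ : ∃ u v : ℤ, u * x + v * y = 1 :=
    ⟨A * x + B * y, C * y, by rw [← hxy]; ring⟩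
  set M : SL(2, ℤ) := ⟨!![x, -v; y, u], by rw [Matrix.det_fin_two_of]; linear_combination huv⟩
    with hM
  set τ₁ := M⁻¹ • τ with hτ₁
  have hback : M • τ₁ = τ := by rw [hτ₁, smul_inv_smul]
  have hmul := smul_mul_den M τ₁
  rw [hback] at hmul
  simp only [den, hM, Matrix.SpecialLinearGroup.coe_mk, Matrix.of_apply, Matrix.cons_val',
    Matrix.cons_val_zero, Matrix.cons_val_one, Matrix.empty_val', Matrix.cons_val_fin_one] at hmul
  push_cast at hmul
  refine ⟨M⁻¹, 2 * A * x * (-v) + B * (x * u + y * (-v)) + 2 * C * y * u,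
    A * v ^ 2 - B * v * u + C * u ^ 2, ⟨one_pos, by simp, ?_⟩, ?_⟩
  · rw [← hτ₁]
    have h1' : (A : ℂ) * x ^ 2 + B * x * y + C * y ^ 2 = 1 := by exact_mod_cast hxy
    have h0 := h.eq
    push_cast
    set T := (τ₁ : ℂ)
    set Z := (τ : ℂ)
    linear_combination ((y : ℂ) * T + u) ^ 2 * h0 - T ^ 2 * h1' -
      ((A : ℂ) * ((Z * ((y : ℂ) * T + u)) + ((x : ℂ) * T - v)) + B * ((y : ℂ) * T + u)) * hmul
  · linear_combination (B ^ 2 - 4 * A * C) * (1 + u * x + v * y) * huv +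
      4 * (A * v ^ 2 - B * v * u + C * u ^ 2) * hxy

/-- **All roots equivalent** when every form represents `1`. -/
theorem IsRootOf.exists_smul_eq (h : IsRootOf τ A B C) (h' : IsRootOf τ' A' B' C')
    (hD : B ^ 2 - 4 * A * C = B' ^ 2 - 4 * A' * C') (hall : AllOne (B ^ 2 - 4 * A * C)) :
    ∃ g : SL(2, ℤ), g • τ = τ' := by
  obtain ⟨g, B₁, C₁, h₁, hD₁⟩ := h.exists_monic (hall A B C h.pos rfl h.prim)
  obtain ⟨g', B₂, C₂, h₂, hD₂⟩ := h'.exists_monic (hall A' B' C' h'.pos hD.symm h'.prim)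
  have he := h₁.root_eq h₂ (by rw [mul_one, hD₁, hD₂, hD])
  push_cast at he
  obtain ⟨n, hn⟩ : (2 : ℤ) ∣ B₁ - B₂ := by
    have h4 : (B₁ - B₂) * (B₁ + B₂) = 4 * (C₁ - C₂) := by linear_combination hD₁ - hD₂ + hD
    have h5 : Even ((B₁ - B₂) * (B₁ + B₂)) := ⟨2 * (C₁ - C₂), by rw [h4]; ring⟩
    rcases Int.even_mul.mp h5 with ⟨i, hi⟩ | ⟨i, hi⟩
    · exact ⟨i, by linarith⟩
    · exact ⟨i - B₂, by linarith⟩
  let T : SL(2, ℤ) := ⟨!![1, n; 0, 1], by simp [Matrix.det_fin_two_of]⟩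
  refine ⟨g'⁻¹ * T * g, ?_⟩
  rw [mul_smul, mul_smul, inv_smul_eq_iff]
  refine UpperHalfPlane.ext (mul_right_cancel₀ (den_ne_zero T (g • τ)) ?_)
  rw [smul_mul_den]
  have hn' : (B₁ : ℂ) - B₂ = 2 * n := by exact_mod_cast hn
  simp only [T, den, Matrix.of_apply, Matrix.cons_val',
    Matrix.cons_val_zero, Matrix.cons_val_one, Matrix.empty_val', Matrix.cons_val_fin_one]
  push_cast
  linear_combination (1 / 2 : ℂ) * he - (1 / 2 : ℂ) * hn'

end FA.ThirteenOrders

end
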