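import Fermat.Agent.ClassNumberOne.Descent
import Fermat.Agent.ThirteenOrders.Stabiliser
import Fermat.Agent.Tau.JInjective
import Fermat.Agent.RT.Tate.Limit

/-!
# The curve of a rational singular modulus

If all points of the discriminant of a quadratic point are equivalent, its `j` is rational. A
rational `j` gives a curve over `ℚ` whose multiplier acts on the points over `ℚ̄`, twisted by
Galois through the square root of the discriminant, and is no scalar on the points of order `p`.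
-/

set_option autoImplicit false
set_option linter.style.haveILetI false

noncomputable section

namespace FA.ThirteenOrders

open FA.Mazur.Wp FA.ClassNumberOne WeierstrassCurve FA.RT.Tate FA.Frob
open FA.ModField (jfun jfun_smul)
open scoped UpperHalfPlane WeierstrassCurve.Affine

local notation "Qb" => AlgebraicClosure ℚ
local notation "GQ" => AlgebraicClosure ℚ ≃ₐ[ℚ] AlgebraicClosure ℚ

theorem jfun_eq_jLat (τ : ℍ) : jfun τ = 1728 * jLat (latPair τ) := by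
  rw [jLat, discr_latPair, g₂_latPair, jfun]
  have h0 := ModularForm.discriminant_ne_zero τ
  have h1 := tpi_ne_zero
  field_simp
  norm_num

theorem jLat_congr {L L' : PeriodPair} {c : ℂ} (hc : c ≠ 0)
    (h : L.lattice = (FA.JInj.scalePair L' c hc).lattice) : jLat L = jLat L' := by
  obtain ⟨e2, e3⟩ := g_congr h
  rw [jLat, jLat, e2, e3, FA.JInj.g₂_scalePair, FA.JInj.g₃_scalePair]
  field_simp

theorem stable_scalePair_iff {L : PeriodPair} {c : ℂ} {hc : c ≠ 0} {x : ℂ} :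
    (∀ l ∈ (FA.JInj.scalePair L c hc).lattice, x * l ∈ (FA.JInj.scalePair L c hc).lattice) ↔
      ∀ l ∈ L.lattice, x * l ∈ L.lattice := by
  refine ⟨fun h l hl => ?_, fun h m hm => ?_⟩
  · obtain ⟨y, hy, e⟩ := FA.JInj.mem_scalePair.mp
      (h _ (FA.JInj.mem_scalePair.mpr ⟨l, hl, rfl⟩))
    rwa [show x * l = y from mul_left_cancel₀ hc (by rw [e]; ring)]
  · obtain ⟨l, hl, rfl⟩ := FA.JInj.mem_scalePair.mp hm
    exact FA.JInj.mem_scalePair.mpr ⟨_, h l hl, by ring⟩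

theorem conj_eq {ω : ℂ} {t n : ℤ} (hω : ω ^ 2 - t * ω + n = 0) (σ : ℂ ≃+* ℂ) :
    σ ω = ω ∨ σ ω = t - ω := by
  have h2 := congrArg σ hω
  simp only [map_add, map_sub, map_mul, map_pow, map_intCast, map_zero] at h2
  have h3 : (σ ω - ω) * (σ ω + ω - t) = 0 := by linear_combination h2 - hω
  rcases mul_eq_zero.1 h3 with h | h
  · exact Or.inl (sub_eq_zero.1 h)
  · exact Or.inr (by linear_combination h)

/-- Stability under a conjugate is stability. -/
theorem stable_of_conj {ω : ℂ} {t n : ℤ} (hω : ω ^ 2 - t * ω + n = 0) (σ : ℂ ≃+* ℂ)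
    {L : PeriodPair} (h : ∀ l ∈ L.lattice, σ ω * l ∈ L.lattice) :
    ∀ l ∈ L.lattice, ω * l ∈ L.lattice := fun l hl => by
  rcases conj_eq hω σ with e | e
  · rw [← e]; exact h l hl
  · rw [show ω * l = t • l - σ ω * l by rw [e, zsmul_eq_mul]; ring]
    exact sub_mem (zsmul_mem hl t) (h l hl)

variable {τ : ℍ} {A B C : ℤ}

/-- **If all points of the discriminant are equivalent, the invariant is rational.** -/
theorem exists_rat_of_equiv (h : IsRootOf τ A B C) (hall : ∀ (τ' : ℍ) (A' B' C' : ℤ),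
    IsRootOf τ' A' B' C' → B' ^ 2 - 4 * A' * C' = B ^ 2 - 4 * A * C →
      ∃ g : Matrix.SpecialLinearGroup (Fin 2) ℤ, g • τ = τ') :
    ∃ r : ℚ, jfun τ = r := by
  refine FA.Period.exists_rat_of_forall_ringEquiv_fixed _ fun σ => ?_
  set L := latPair τ with hL
  have hΔ := discr_latPair_ne_zero τ
  have hΔσ : (σ L.g₂) ^ 3 - 27 * (σ L.g₃) ^ 2 ≠ 0 := fun e => hΔ (σ.injective (by
    rw [map_zero, map_sub, map_mul, map_pow, map_pow, map_ofNat, e]))
  obtain ⟨L', h2, h3⟩ := exists_lattice hΔσ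
  haveI : (latCurve L).IsElliptic := isElliptic_latCurve hΔ
  haveI : (latCurve L').IsElliptic := isElliptic_latCurve (by rwa [h2, h3])
  have hn : A * C ≠ 0 := mul_ne_zero h.pos.ne' h.C_pos.ne'
  obtain ⟨hst, -⟩ := transport σ h2.symm h3.symm h.stable hn h.poly
  obtain ⟨τ', c, hc, hlat⟩ := FA.JInj.exists_latPair L'
  -- the point of the conjugate lattice
  have hst' : ∀ l ∈ (latPair τ').lattice, (A : ℂ) * τ * l ∈ (latPair τ').lattice := by
    have h1 := stable_of_conj h.poly σ hst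
    simp only [hlat] at h1
    exact stable_scalePair_iff.mp h1
  have him : ((A : ℂ) * τ).im ≠ 0 := by
    simp [Complex.mul_im, h.pos.ne', τ.im_pos.ne']
  obtain ⟨A', B', C', h'⟩ := exists_isRootOf him hst'
  have hst2 : ∀ l ∈ L'.lattice, (A' : ℂ) * τ' * l ∈ L'.lattice := by
    simp only [hlat]
    exact stable_scalePair_iff.mpr h'.stable
  obtain ⟨hback, -⟩ := transport σ.symm (L := L') (L' := L)
    (by rw [h2, RingEquiv.symm_apply_apply]) (by rw [h3, RingEquiv.symm_apply_apply]) hst2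
    (mul_ne_zero h'.pos.ne' h'.C_pos.ne') h'.poly
  have hD := h.disc_eq h' hst' (stable_of_conj h'.poly σ.symm hback)
  obtain ⟨g, hg⟩ := hall τ' A' B' C' h' hD.symm
  have hσj : σ (jLat L) = jLat L' := by
    simp only [jLat, h2, h3, map_div₀, map_sub, map_mul, map_pow, map_ofNat]
  rw [jfun_eq_jLat, map_mul, map_ofNat, ← hL, hσj, jLat_congr hc hlat, ← jfun_eq_jLat, ← hg,
    jfun_smul, jfun_eq_jLat]

/-- **The curve over `ℚ` of a rational singular modulus**, with `D = F² d`. -/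
theorem exists_cm_curve (h : IsRootOf τ A B C) {r : ℚ} (hr : jfun τ = r) {d F : ℤ}
    (hd : B ^ 2 - 4 * A * C = F ^ 2 * d) :
    ∃ (W : WeierstrassCurve ℤ) (_ : (ratCurve W).IsElliptic) (s : Qb) (M : Pts W →+ Pts W),
      s ^ 2 = (d : Qb) ∧
      (∀ P, M (M P) + B • M P + (A * C) • P = 0) ∧
      (∀ σ : GQ, σ s = s → ∀ P, σ • M P = M (σ • P)) ∧
      (∀ σ : GQ, σ s = -s → ∀ P, σ • M P = -M (σ • P) - B • (σ • P)) ∧
      ∀ p : ℕ, p.Prime → ∀ k : ℤ, ¬ ∀ P : Pts W, p • P = 0 → M P = k • P := by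
  classical
  have hF : F ≠ 0 := fun e => by
    have := h.disc_neg
    rw [hd, e] at this
    simp at this
  -- an integral model
  obtain ⟨a, b, hab, habr⟩ := exists_rat_pair (r / 1728)
  set T : ℚ := 4 * a.den * b.den with hT
  have hT0 : T ≠ 0 := mul_ne_zero (mul_ne_zero four_ne_zero (Nat.cast_ne_zero.mpr a.den_nz))
    (Nat.cast_ne_zero.mpr b.den_nz)
  set a₄ : ℤ := -64 * ((a.den : ℤ) ^ 3 * (b.den : ℤ) ^ 4 * a.num) with ha₄
  set a₆ : ℤ := -1024 * ((a.den : ℤ) ^ 6 * (b.den : ℤ) ^ 5 * b.num) with ha₆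
  have e4 : -4 * (a₄ : ℚ) = T ^ 4 * a := by
    rw [ha₄, hT]; push_cast; rw [← Rat.mul_den_eq_num a]; ring
  have e6 : -4 * (a₆ : ℚ) = T ^ 6 * b := by
    rw [ha₆, hT]; push_cast; rw [← Rat.mul_den_eq_num b]; ring
  set W : WeierstrassCurve ℤ := ⟨0, 0, 0, a₄, a₆⟩ with hW
  have hne : (-4 * (a₄ : ℚ)) ^ 3 - 27 * (-4 * (a₆ : ℚ)) ^ 2 ≠ 0 := by
    rw [e4, e6, show (T ^ 4 * a) ^ 3 - 27 * (T ^ 6 * b) ^ 2 = T ^ 12 * (a ^ 3 - 27 * b ^ 2) by ring]
    exact mul_ne_zero (pow_ne_zero _ hT0) hab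
  have hne' : (-4 * (a₄ : ℂ)) ^ 3 - 27 * (-4 * (a₆ : ℂ)) ^ 2 ≠ 0 := fun e =>
    hne (by exact_mod_cast (show ((( -4 * (a₄ : ℚ)) ^ 3 - 27 * (-4 * (a₆ : ℚ)) ^ 2 : ℚ) : ℂ) = 0 by
      push_cast; exact e))
  haveI hEll : (ratCurve W).IsElliptic := ⟨by
    rw [isUnit_iff_ne_zero]
    intro e
    refine hne ?_
    simp only [hW, ratCurve, WeierstrassCurve.map, eq_intCast, map_zero, WeierstrassCurve.Δ, b₂,
      b₄, b₆, b₈] at e
    linear_combination e⟩
  -- the lattice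
  have hjL : (-4 * (a₄ : ℂ)) ^ 3 / ((-4 * (a₄ : ℂ)) ^ 3 - 27 * (-4 * (a₆ : ℂ)) ^ 2) =
      jLat (latPair τ) := by
    have h1 : (-4 * (a₄ : ℚ)) ^ 3 / ((-4 * (a₄ : ℚ)) ^ 3 - 27 * (-4 * (a₆ : ℚ)) ^ 2) =
        r / 1728 := by
      rw [e4, e6, ← habr]; field_simp
    have h2 := congrArg (fun x : ℚ => (x : ℂ)) h1
    push_cast at h2
    rw [h2, ← hr, jfun_eq_jLat]
    ring
  obtain ⟨u, hu, hu4, hu6⟩ := FA.ClassNumberOne.exists_scale hne' (discr_latPair_ne_zero τ) hjL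
  set L := scaled (latPair τ) (inv_ne_zero hu) with hL
  have hg2 : L.g₂ = -4 * (a₄ : ℂ) := by rw [hL, g₂_scaled, inv_inv, hu4]
  have hg3 : L.g₃ = -4 * (a₆ : ℂ) := by rw [hL, g₃_scaled, inv_inv, hu6]
  haveI : (latCurve L).IsElliptic := isElliptic_latCurve (by rw [hg2, hg3]; exact hne')
  -- the multiplier
  set θ : ℂ := (A : ℂ) * τ with hθ
  have hstab : ∀ l ∈ L.lattice, θ * l ∈ L.lattice := fun l hl => by
    rw [hL, mem_scaled] at hl ⊢
    rw [mul_assoc]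
    exact h.stable _ hl
  have hpoly := h.poly
  rw [← hθ] at hpoly
  have hn : A * C ≠ 0 := mul_ne_zero h.pos.ne' h.C_pos.ne'
  set μ := mulPt L hstab with hμ
  have hμμ : ∀ Q, μ (μ Q) + B • μ Q + (A * C) • Q = 0 := fun Q => by
    obtain ⟨z, rfl⟩ := unif_surjective L Q
    rw [hμ, mulPt_unif, mulPt_unif, ← unifHom_apply, ← unifHom_apply, ← unifHom_apply,
      ← map_zsmul, ← map_zsmul, ← map_add, ← map_add, ← map_zero (unifHom L)]
    congr 1
    rw [zsmul_eq_mul, zsmul_eq_mul]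
    push_cast at hpoly ⊢
    linear_combination z * hpoly
  have hσg : ∀ σ : ℂ ≃+* ℂ, σ L.g₂ = L.g₂ ∧ σ L.g₃ = L.g₃ := fun σ => by
    rw [hg2, hg3]; simp [map_ofNat]
  let e : ∀ σ : ℂ ≃+* ℂ, (latCurve L).toAffine.Point →+ (latCurve L).toAffine.Point := fun σ =>
    mapPt (σ : ℂ →+* ℂ) (map_latCurve σ (hσg σ).1 (hσg σ).2)
  have hconj : ∀ (σ : ℂ ≃+* ℂ) (Q : (latCurve L).toAffine.Point),
      (σ θ = θ → e σ (μ Q) = μ (e σ Q)) ∧
      (σ θ ≠ θ → e σ (μ Q) = -μ (e σ Q) - B • e σ Q) := fun σ Q => by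
    obtain ⟨z, hz⟩ := unif_surjective L (e σ Q)
    have ht := (transport σ (hσg σ).1 (hσg σ).2 hstab hn hpoly).2 Q z hz.symm
    refine ⟨fun hσ => ?_, fun hσ => ?_⟩ <;> rw [show e σ (μ Q) = _ from ht, ← hz, hμ, mulPt_unif]
    · rw [hσ]
    · rw [(conj_eq hpoly σ).resolve_left hσ, ← unifHom_apply, ← unifHom_apply, ← unifHom_apply,
        ← map_zsmul, ← map_neg, ← map_sub]
      congr 1
      rw [zsmul_eq_mul]
      push_cast
      ring
  -- the algebraic points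
  let j : Qb →+* ℂ := (IsAlgClosed.lift : Qb →ₐ[ℚ] ℂ).toRingHom
  letI : Algebra Qb ℂ := j.toAlgebra
  have hmap : ((ratCurve W)⁄Qb).map j = latCurve L := by
    ext <;> simp [hW, latCurve, hg2, hg3, ratCurve]
  let ι : Pts W →+ (latCurve L).toAffine.Point := mapPt j hmap
  have hι : Function.Injective ι := fun P Q he =>
    sub_eq_zero.1 ((mapPt_eq_zero_iff j hmap).1 (by rw [map_sub, he, sub_self]))
  have hpre : ∀ (Q : (latCurve L).toAffine.Point) (S : Set (latCurve L).toAffine.Point), S.Finite →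
      (∀ σ, e σ Q ∈ S) → ∃ P, ι P = Q := fun Q S hS hSm => by
    rcases hQ : Q with _ | ⟨x, y, hxy⟩
    · exact ⟨0, map_zero ι⟩
    obtain ⟨x', hx⟩ := mem_range_of_finite_orbit j (z := xP Q) (hS.image xP) fun σ =>
      ⟨_, hSm σ, xP_mapPt _ _ Q⟩
    obtain ⟨y', hy⟩ := mem_range_of_finite_orbit j (z := yP Q) (hS.image yP) fun σ =>
      ⟨_, hSm σ, yP_mapPt _ _ Q⟩
    rw [hQ] at hx hy
    simp only [xP, yP] at hx hy
    subst hx hy
    exact ⟨.some x' y'
      ((((ratCurve W)⁄Qb).toAffine.map_nonsingular j.injective x' y').1 (hmap ▸ hxy)), rfl⟩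
  have horb : ∀ P, ∃ S : Set (latCurve L).toAffine.Point, S.Finite ∧ ∀ σ, e σ (ι P) ∈ S :=
    fun P => by
    obtain ⟨X, hX, hXm⟩ := finite_orbit j (xP P)
    obtain ⟨Y, hY, hYm⟩ := finite_orbit j (yP P)
    refine ⟨{0} ∪ {Q | Q ≠ 0 ∧ xP Q ∈ X ∧ yP Q ∈ Y}, (Set.finite_singleton _).union ?_, fun σ => ?_⟩
    · refine Set.Finite.of_finite_image ((hX.prod hY).subset ?_)
        (f := fun Q => (xP Q, yP Q)) fun P hP Q hQ he => ?_
      · rintro _ ⟨Q, hQ, rfl⟩; exact hQ.2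
      · exact eq_of_coord hP.1 hQ.1 (congrArg Prod.fst he) (congrArg Prod.snd he)
    · rcases eq_or_ne (e σ (ι P)) 0 with h0 | h0
      · exact Or.inl h0
      · exact Or.inr ⟨h0, by simp only [e, ι]; rw [xP_mapPt, xP_mapPt]; exact hXm σ,
          by simp only [e, ι]; rw [yP_mapPt, yP_mapPt]; exact hYm σ⟩
  have hex : ∀ P, ∃ P' : Pts W, ι P' = μ (ι P) := fun P => by
    obtain ⟨S, hS, hSm⟩ := horb P
    refine hpre _ _ ((hS.image fun Q => μ Q).union (hS.image fun Q => -μ Q - B • Q)) fun σ => ?_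
    rcases eq_or_ne (σ θ) θ with hσ | hσ
    · exact Or.inl ⟨_, hSm σ, ((hconj σ _).1 hσ).symm⟩
    · exact Or.inr ⟨_, hSm σ, ((hconj σ _).2 hσ).symm⟩
  choose M hM using hex
  let Mh : Pts W →+ Pts W := AddMonoidHom.mk' M fun P Q => hι (by
    rw [map_add, hM, hM, hM, map_add, map_add])
  -- the square root
  obtain ⟨s, hs⟩ := IsAlgClosed.exists_pow_nat_eq (d : Qb) two_pos
  have hsθ : (2 * θ + B) ^ 2 = ((F : ℂ) * j s) ^ 2 := by
    rw [mul_pow, ← map_pow, hs, map_intCast, hθ, ← mul_assoc, h.sq, hd]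
    push_cast
    rfl
  have hext : ∀ σ : GQ, ∃ σ' : ℂ ≃+* ℂ, (∀ a, σ' (j a) = j (σ a)) ∧
      ∀ R, ι (σ • R) = e σ' (ι R) := fun σ => by
    obtain ⟨σ', hσ'⟩ := FA.Carayol.exists_extend_complex σ
    refine ⟨σ', hσ', ?_⟩
    rintro (_ | ⟨x, y, hxy⟩)
    · rfl
    · show Affine.Point.some _ _ _ = Affine.Point.some _ _ _
      simp only [Affine.Point.some.injEq]
      exact ⟨(hσ' x).symm, (hσ' y).symm⟩
  have hθσ : ∀ (σ' : ℂ ≃+* ℂ) (ε : ℂ), σ' (j s) = ε * j s → ε ^ 2 = 1 →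
      σ' (2 * θ + B) = ε * (2 * θ + B) := fun σ' ε hσ' _ => by
    rcases sq_eq_sq_iff_eq_or_eq_neg.1 hsθ with e | e <;>
      rw [e] <;> simp only [map_neg, map_mul, map_intCast, hσ'] <;> ring
  refine ⟨W, hEll, s, Mh, hs, fun P => hι ?_, fun σ hσ P => hι ?_, fun σ hσ P => hι ?_, ?_⟩
  · show ι (M (M P) + B • M P + (A * C) • P) = ι 0
    rw [map_add, map_add, map_zsmul, map_zsmul, hM, hM, hμμ, map_zero]
  · obtain ⟨σ', hσ', hR⟩ := hext σ
    have e1 := hθσ σ' 1 (by rw [one_mul, hσ', hσ]) (one_pow 2)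
    simp only [map_add, map_mul, map_ofNat, map_intCast, one_mul] at e1
    have hθ' : σ' θ = θ := by linear_combination (1 / 2 : ℂ) * e1
    show ι (σ • M P) = ι (M (σ • P))
    rw [hR, hM, hM, hR]
    exact (hconj σ' _).1 hθ'
  · obtain ⟨σ', hσ', hR⟩ := hext σ
    have e1 := hθσ σ' (-1) (by rw [hσ', hσ, map_neg]; ring) (by norm_num)
    simp only [map_add, map_mul, map_ofNat, map_intCast] at e1
    have hθ' : σ' θ ≠ θ := fun e2 => by
      rw [e2] at e1
      have hz : 2 * θ + B = 0 := by linear_combination (1 / 2 : ℂ) * e1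
      rw [hθ, ← mul_assoc] at hz
      exact h.im_pos.ne' (by rw [hz, Complex.zero_im])
    show ι (σ • M P) = ι (-M (σ • P) - B • (σ • P))
    rw [hR, hM, map_sub, map_neg, map_zsmul, hM, hR]
    exact (hconj σ' _).2 hθ'
  -- no scalar on the points of order `p`
  intro p hp k hk
  have hfin : {Q : (latCurve L).toAffine.Point | p • Q = 0}.Finite := by
    refine (((Finset.Ico (0 : ℤ) p) ×ˢ (Finset.Ico (0 : ℤ) p)).image fun x =>
      unif L (((x.1 : ℂ) * L.ω₁ + x.2 * L.ω₂) / p)).finite_toSet.subset ?_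
    intro Q hQ
    obtain ⟨z, rfl⟩ := unif_surjective L Q
    have hQ' : (p : ℂ) * z ∈ L.lattice := by
      rw [← nsmul_eq_mul, ← unif_eq_zero_iff L, ← unifHom_apply, map_nsmul]
      exact hQ
    obtain ⟨m, n, hmn⟩ := PeriodPair.mem_lattice.1 hQ'
    have hp0 : (p : ℤ) ≠ 0 := by exact_mod_cast hp.ne_zero
    refine Finset.mem_coe.2 (Finset.mem_image.2 ⟨(m % p, n % p), ?_, ?_⟩)
    · simp [Int.emod_nonneg _ hp0, Int.emod_lt_of_pos _ (show (0 : ℤ) < p by exact_mod_cast hp.pos)]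
    rw [unif_eq_unif_iff, PeriodPair.mem_lattice]
    refine ⟨-(m / p), -(n / p), ?_⟩
    have hp' : (p : ℂ) ≠ 0 := Nat.cast_ne_zero.2 hp.ne_zero
    have ea : ((m % p : ℤ) : ℂ) + p * (m / p : ℤ) = m := by
      exact_mod_cast Int.emod_add_mul_ediv m p
    have eb : ((n % p : ℤ) : ℂ) + p * (n / p : ℤ) = n := by
      exact_mod_cast Int.emod_add_mul_ediv n p
    field_simp
    push_cast
    linear_combination -hmn - L.ω₁ * ea - L.ω₂ * eb
  have htest : ∀ v w : ℤ, (p : ℤ) ∣ A * w - B * v - k * v ∧ (p : ℤ) ∣ -C * v - k * w :=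
    fun v w => by
    set z : ℂ := ((v : ℂ) * τ + w) * u⁻¹ / p with hz
    have hp' : (p : ℂ) ≠ 0 := Nat.cast_ne_zero.2 hp.ne_zero
    have hmem : (p : ℂ) * z ∈ L.lattice := by
      rw [hL, mem_scaled, mem_latPair, hz]
      exact ⟨v, w, by field_simp⟩
    have hpz : p • unif L z = 0 := by
      rw [← unifHom_apply, ← map_nsmul, unifHom_apply, unif_eq_zero_iff, nsmul_eq_mul]
      exact hmem
    obtain ⟨P, hP⟩ := hpre _ _ hfin fun σ => show p • e σ (unif L z) = 0 by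
      rw [← map_nsmul, hpz, map_zero]
    have hpP : p • P = 0 := hι (by rw [map_nsmul, hP, hpz, map_zero])
    have h1 := congrArg ι (hk P hpP)
    rw [show ι (Mh P) = μ (ι P) from hM P, map_zsmul, hP, hμ, mulPt_unif, ← unifHom_apply,
      ← unifHom_apply, ← map_zsmul, unifHom_apply, unifHom_apply, unif_eq_unif_iff, hL,
      mem_scaled, mem_latPair] at h1
    obtain ⟨i, i', hi⟩ := h1
    obtain ⟨z1, z2⟩ := coord_zero (τ := τ) (m := A * w - B * v - k * v - p * i)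
      (n := -C * v - k * w - p * i') (by
      rw [hθ, hz, zsmul_eq_mul] at hi
      field_simp at hi
      push_cast
      linear_combination -hi - (v : ℂ) * h.eq)
    exact ⟨⟨i, by linarith⟩, ⟨i', by linarith⟩⟩
  obtain ⟨a1, a2⟩ := htest 0 1
  obtain ⟨b1, b2⟩ := htest 1 0
  simp only [mul_one, mul_zero, sub_zero, zero_sub, dvd_neg] at a1 a2 b1 b2
  refine primitive_iff.mp h.prim p hp a1 ?_ ?_
  · simpa using (dvd_add b1 a2)
  · simpa using b2

end FA.ThirteenOrders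

end
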