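import Fermat.Agent.ThirteenOrders.Frobenius
import Fermat.Agent.Root.SummaryPrimesForms

/-!
# A rational singular modulus has one of thirteen discriminants
-/

set_option autoImplicit false
set_option linter.style.haveILetI false

noncomputable section

namespace FA.ThirteenOrders

open FA.ModField (jfun)
open FA.Frob FA.RT.Tate
open scoped UpperHalfPlane

variable {τ : ℍ} {A B C : ℤ}

/-- Every form of discriminant `G² d`, `G ∣ F`, represents `1`. -/
theorem allOne_of_dvd (h : IsRootOf τ A B C) {r : ℚ} (hr : jfun τ = r) {d F : ℤ}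
    (hd : Squarefree d) (hd0 : d < 0) (hD : B ^ 2 - 4 * A * C = F ^ 2 * d) {G : ℤ} (hG : G ∣ F) :
    AllOne (G ^ 2 * d) := by
  classical
  intro A₁ B₁ C₁ hA₁ hdisc hprim
  have hF : F ≠ 0 := fun e => by
    have := h.disc_neg
    rw [hD, e] at this
    simp at this
  have hG0 : G ≠ 0 := fun e => hF (by simpa [e] using hG)
  obtain ⟨W, hW, s, M, hs, hMM, hfix, hflip, hns⟩ := exists_cm_curve h hr hD
  have hneg : B₁ ^ 2 - 4 * A₁ * C₁ < 0 :=
    hdisc ▸ mul_neg_of_pos_of_neg (by positivity) hd0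
  obtain ⟨l, ⟨hl, x, y, hxy⟩, hlS⟩ := (FA.Summary.infinite_primes_primitive_form A₁ B₁ C₁ hA₁ hneg
    hprim).exists_gt (2 * W.Δ.natAbs * (F * d).natAbs + (F * d).natAbs + A₁.natAbs)
  haveI := Fact.mk hl
  have hFd1 : 0 < (F * d).natAbs := Int.natAbs_pos.mpr (mul_ne_zero hF hd0.ne)
  have hA : ((A₁ : ℤ) : ZMod l) ≠ 0 := fun e => by
    rw [ZMod.intCast_zmod_eq_zero_iff_dvd] at e
    have := Nat.le_of_dvd (Int.natAbs_pos.mpr hA₁.ne') (Int.natCast_dvd.mp e)
    omega
  have hGl : ((G : ℤ) : ZMod l) ≠ 0 := fun e => by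
    rw [ZMod.intCast_zmod_eq_zero_iff_dvd] at e
    have := Nat.le_of_dvd hFd1 (Int.natCast_dvd.mp ((e.trans hG).mul_right d))
    omega
  have hy : ((y : ℤ) : ZMod l) ≠ 0 := fun e => by
    rw [ZMod.intCast_zmod_eq_zero_iff_dvd] at e
    obtain ⟨y', rfl⟩ := e
    have hx : (l : ℤ) ∣ A₁ * x ^ 2 :=
      ⟨1 - B₁ * x * y' - C₁ * l * y' ^ 2, by linear_combination -hxy⟩
    obtain ⟨x', rfl⟩ := ((Nat.prime_iff_prime_int.mp hl).dvd_mul.mp hx).resolve_left
      (fun e => hA ((ZMod.intCast_zmod_eq_zero_iff_dvd _ _).mpr e)) |>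
        (Nat.prime_iff_prime_int.mp hl).dvd_of_dvd_pow
    have h1 : (l : ℤ) * 1 = (l : ℤ) * ((l : ℤ) * (A₁ * x' ^ 2 + B₁ * x' * y' + C₁ * y' ^ 2)) := by
      linear_combination hxy
    have h2 : (l : ℤ) ∣ 1 := ⟨_, mul_left_cancel₀ (by exact_mod_cast hl.ne_zero) h1⟩
    have := Int.le_of_dvd one_pos h2
    have := hl.two_le
    omega
  have hsq : IsSquare ((d : ℤ) : ZMod l) := by
    refine ⟨((2 * A₁ * x + B₁ * y : ℤ) : ZMod l) / ((G : ZMod l) * (y : ZMod l)), ?_⟩
    have e : (2 * A₁ * x + B₁ * y) ^ 2 - G ^ 2 * d * y ^ 2 = 4 * A₁ * l := by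
      rw [← hdisc, hxy]; ring
    have e' := congrArg (fun z : ℤ => (z : ZMod l)) e
    push_cast at e' ⊢
    rw [ZMod.natCast_self, mul_zero] at e'
    field_simp
    linear_combination -e'
  obtain ⟨u, k, hu⟩ := exists_principal_value hd hd0 hD hF hs hMM hfix hflip hns l hl (by omega) hsq
  obtain ⟨F', hF'⟩ := hG
  refine repOne_of_prime hdisc hl hxy.symm (u := u) (k := F' * k) ?_
  rw [← hu, hF']
  ring

/-- **The discriminant of a rational singular modulus is one of the thirteen.** -/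
theorem mem_thirteen_of_rat (h : IsRootOf τ A B C) {r : ℚ} (hr : jfun τ = r) :
    B ^ 2 - 4 * A * C ∈ thirteen := by
  classical
  have hneg := h.disc_neg
  obtain ⟨a, b, hab, ha⟩ := Nat.sq_mul_squarefree (B ^ 2 - 4 * A * C).natAbs
  set d : ℤ := -(a : ℤ) with hd
  set F : ℤ := (b : ℤ) with hFdef
  have hab' : (b : ℤ) ^ 2 * a = ((B ^ 2 - 4 * A * C).natAbs : ℤ) := by exact_mod_cast hab
  rw [Int.natCast_natAbs, abs_of_neg hneg] at hab'
  have hD : B ^ 2 - 4 * A * C = F ^ 2 * d := by rw [hd, hFdef]; linarith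
  have ha0 : a ≠ 0 := ha.ne_zero
  have hd0 : d < 0 := by omega
  have hdsq : Squarefree d := by
    rw [← Int.squarefree_natAbs, hd, Int.natAbs_neg, Int.natAbs_natCast]; exact ha
  have hF : F ≠ 0 := fun e => by
    rw [hD, e] at hneg
    simp at hneg
  obtain ⟨W, hW, s, M, hs, hMM, hfix, hflip, -⟩ := exists_cm_curve h hr hD
  have hnine := FA.Summary.exceptional_field_nine (ratCurve W) hdsq (by omega)
    fun m _ => exceptional_of_cm hd0 hD hF hs hMM hflip m
  by_cases h12 : d = -1 ∨ d = -2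
  · -- the conductor is even
    obtain ⟨f, hf⟩ : 2 ∣ b := by
      by_contra hodd
      obtain ⟨k, hk⟩ : ∃ k : ℤ, F = 2 * k + 1 := ⟨(b : ℤ) / 2, by omega⟩
      rw [hk] at hD
      rcases Int.even_or_odd' B with ⟨i, rfl | rfl⟩ <;> rcases h12 with e | e <;> rw [e] at hD <;>
        ring_nf at hD <;> omega
    have hF2 : F = 2 * (f : ℤ) := by rw [hFdef, hf]; push_cast; rfl
    have hmem : (f : ℤ) ^ 2 * (4 * d) ∈ thirteen := by
      refine mem_thirteen ?_ (fun e => hF (by rw [hF2, e]; simp)) fun g hg => ?_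
      · simp only [nine, Finset.mem_insert, Finset.mem_singleton]
        omega
      · have := allOne_of_dvd h hr hdsq hd0 hD (G := 2 * (g : ℤ))
          (hF2 ▸ mul_dvd_mul_left 2 (Int.natCast_dvd_natCast.mpr hg))
        rwa [show (g : ℤ) ^ 2 * (4 * d) = (2 * (g : ℤ)) ^ 2 * d by ring]
    rw [hD, hF2, show (2 * (f : ℤ)) ^ 2 * d = (f : ℤ) ^ 2 * (4 * d) by ring]
    exact hmem
  · rw [hD, hFdef]
    refine mem_thirteen ?_ (fun e => hF (by rw [hFdef, e]; rfl)) fun g hg => ?_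
    · simp only [nine, Finset.mem_insert, Finset.mem_singleton] at hnine ⊢
      omega
    · exact allOne_of_dvd h hr hdsq hd0 hD (G := (g : ℤ)) (Int.natCast_dvd_natCast.mpr hg)

end FA.ThirteenOrders

end
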