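import Fermat.Agent.ThirteenOrders.Curve
import Fermat.Agent.Root.SummaryExceptionalNine
import Fermat.Agent.Root.SummaryDeuringExceptional
import Fermat.Agent.GoodReduction.FrobeniusEverywhere

/-!
# Frobenius elements and the conductor

On the Tate module a Frobenius element commuting with a multiplier which is no scalar modulo `p`
has discriminant a square times that of the multiplier, so the conductor divides `b` in
`4 l = a² + |d| b²` and the principal form of the order takes the value `l`.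
-/

set_option autoImplicit false
set_option linter.style.haveILetI false

noncomputable section

namespace FA.ThirteenOrders

open WeierstrassCurve Matrix FA.RT.Tate FA.Frob FA.GoodReduction
open scoped WeierstrassCurve.Affine

local notation "Qb" => AlgebraicClosure ℚ
local notation "GQ" => AlgebraicClosure ℚ ≃ₐ[ℚ] AlgebraicClosure ℚ
local notation "M2" => Matrix (Fin 2) (Fin 2)

/-- A matrix commuting with one that is no scalar modulo the maximal ideal. -/
theorem disc_of_commute {R : Type*} [CommRing R] {X Θ : M2 R}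
    (hu : IsUnit (Θ 1 0) ∨ IsUnit (Θ 0 1) ∨ IsUnit (Θ 1 1 - Θ 0 0)) (hc : X * Θ = Θ * X) :
    ∃ c : R, X.trace ^ 2 - 4 * X.det = c ^ 2 * (Θ.trace ^ 2 - 4 * Θ.det) := by
  have e : ∀ i j, (X * Θ) i j = (Θ * X) i j := fun i j => by rw [hc]
  have e00 := e 0 0
  have e01 := e 0 1
  have e10 := e 1 0
  simp only [Matrix.mul_apply, Fin.sum_univ_two] at e00 e01 e10
  suffices H : ∃ c : R, X 1 0 = c * Θ 1 0 ∧ X 0 1 = c * Θ 0 1 ∧
      X 1 1 - X 0 0 = c * (Θ 1 1 - Θ 0 0) by
    obtain ⟨c, h1, h2, h3⟩ := H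
    refine ⟨c, ?_⟩
    rw [trace_fin_two, trace_fin_two, det_fin_two, det_fin_two]
    linear_combination (X 1 1 - X 0 0 + c * (Θ 1 1 - Θ 0 0)) * h3 + 4 * X 0 1 * h1 +
      4 * c * Θ 1 0 * h2
  rcases hu with h | h | h <;> obtain ⟨v, hv⟩ := h.exists_left_inv
  · exact ⟨X 1 0 * v, by linear_combination -X 1 0 * hv,
      by linear_combination v * e00 - X 0 1 * hv,
      by linear_combination v * e10 - (X 1 1 - X 0 0) * hv⟩
  · exact ⟨X 0 1 * v, by linear_combination -v * e00 - X 1 0 * hv,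
      by linear_combination -X 0 1 * hv,
      by linear_combination -v * e01 - (X 1 1 - X 0 0) * hv⟩
  · exact ⟨(X 1 1 - X 0 0) * v, by linear_combination -v * e10 - X 1 0 * hv,
      by linear_combination v * e01 - X 0 1 * hv,
      by linear_combination -(X 1 1 - X 0 0) * hv⟩

variable {W : WeierstrassCurve ℤ} [(ratCurve W).IsElliptic]

section tate

variable {p : ℕ} [hp : Fact p.Prime] (T : TateBasis p W)

/-- An additive map of the points acts on the Tate module. -/
theorem exists_matrix_hom (f : Pts W →+ Pts W) :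
    ∃ Θ : M2 ℤ_[p], ∀ n v, f (T.φ n v) = T.φ n (Θ *ᵥ v) := by
  choose c hc using fun j : Fin 2 => T.exists_vec (x := fun n => f (T.φ n (Pi.single j 1)))
    (fun n => by rw [← map_nsmul, T.nsmul_phi, map_zero])
    (fun n => by rw [← map_nsmul, T.compat])
  refine ⟨Matrix.of fun i j => c j i, fun n v => ?_⟩
  have : NeZero (p ^ n) := ⟨pow_ne_zero _ hp.out.ne_zero⟩
  let k : Fin 2 → ℕ := fun i => (PadicInt.toZModPow n (v i)).val
  let v' : Fin 2 → ℤ_[p] := fun i => (k i : ℤ_[p])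
  have hv : T.φ n v = T.φ n v' := T.phi_eq_iff.mpr fun i => by
    show _ = PadicInt.toZModPow n (k i : ℤ_[p])
    rw [map_natCast, ZMod.natCast_zmod_val]
  have hv' : v' = k 0 • Pi.single 0 1 + k 1 • Pi.single 1 1 := by
    funext i
    fin_cases i <;> simp [v', nsmul_eq_mul]
  rw [hv, T.phi_mulVec_congr _ hv, hv', mulVec_add, mulVec_smul, mulVec_smul, mulVec_single_one,
    mulVec_single_one, map_add, map_nsmul, map_nsmul, map_add, map_nsmul, map_nsmul]
  have e : ∀ j, (Matrix.of fun i j => c j i).col j = c j := fun j => rfl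
  rw [e, e, map_add, map_nsmul, map_nsmul, hc, hc]

/-- The discriminant of a Frobenius element commuting with the multiplier. -/
theorem exists_disc_eq (M : Pts W →+ Pts W) {B N : ℤ} (hMM : ∀ P, M (M P) + B • M P + N • P = 0)
    (hns : ∀ k : ℤ, ¬ ∀ P : Pts W, p • P = 0 → M P = k • P) {σ : GQ}
    (hσ : ∀ P, σ • M P = M (σ • P)) {a : ℤ} {l : ℕ} (hta : (T.rep σ).trace = (a : ℤ_[p]))
    (hdl : (T.rep σ).det = (l : ℤ_[p])) :
    ∃ c : ℤ_[p], ((a ^ 2 - 4 * (l : ℤ) : ℤ) : ℤ_[p]) = c ^ 2 * ((B ^ 2 - 4 * N : ℤ) : ℤ_[p]) := by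
  obtain ⟨Θ, hΘ⟩ := exists_matrix_hom T M
  have hcomm : T.rep σ * Θ = Θ * T.rep σ := T.ext_phi fun n v => by
    rw [← mulVec_mulVec, ← mulVec_mulVec, ← T.rep_spec, ← hΘ, hσ, T.rep_spec, hΘ]
  have hquad : Θ * Θ + (B : ℤ_[p]) • Θ + (N : ℤ_[p]) • (1 : M2 ℤ_[p]) = 0 := T.ext_phi fun n v => by
    rw [add_mulVec, add_mulVec, smul_mulVec, smul_mulVec, one_mulVec, ← mulVec_mulVec,
      Int.cast_smul_eq_zsmul, Int.cast_smul_eq_zsmul, map_add, map_add, map_zsmul, map_zsmul,
      ← hΘ, ← hΘ, hMM, zero_mulVec, map_zero]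
  -- no scalar modulo `p`
  have hu : IsUnit (Θ 1 0) ∨ IsUnit (Θ 0 1) ∨ IsUnit (Θ 1 1 - Θ 0 0) := by
    by_contra hno
    simp only [not_or] at hno
    have h0 : ∀ x : ℤ_[p], ¬ IsUnit x → PadicInt.toZModPow 1 x = 0 := fun x hx => by
      rw [← RingHom.mem_ker, PadicInt.ker_toZModPow, pow_one, Ideal.mem_span_singleton]
      rwa [← PadicInt.norm_lt_one_iff_dvd, ← PadicInt.not_isUnit_iff]
    have : NeZero (p ^ 1) := ⟨pow_ne_zero _ hp.out.ne_zero⟩
    refine hns ((PadicInt.toZModPow 1 (Θ 0 0)).val) fun P hP => ?_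
    obtain ⟨v, rfl⟩ := T.surj 1 P (by rwa [pow_one])
    rw [hΘ, ← map_zsmul, T.phi_eq_iff]
    intro i
    have d1 : PadicInt.toZModPow 1 (Θ 1 1) = PadicInt.toZModPow 1 (Θ 0 0) := by
      rw [← sub_eq_zero, ← map_sub]; exact h0 _ hno.2.2
    fin_cases i <;>
      simp [Matrix.mulVec, dotProduct, Fin.sum_univ_two, h0 _ hno.1, h0 _ hno.2.1, d1]
  have hΘq := hquad
  rw [FA.LocalDef.mul_self_two Θ] at hΘq
  have hent : ∀ i j, (Θ.trace + B) * Θ i j = (Θ.det - N) * (1 : M2 ℤ_[p]) i j := fun i j => by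
    have h := congrFun (congrFun hΘq i) j
    simp only [Matrix.add_apply, Matrix.sub_apply, Matrix.smul_apply, Matrix.zero_apply,
      smul_eq_mul] at h
    linear_combination h
  have htr : Θ.trace + B = 0 := by
    rcases hu with h | h | h
    · exact h.mul_left_eq_zero.mp (by simpa using hent 1 0)
    · exact h.mul_left_eq_zero.mp (by simpa using hent 0 1)
    · refine h.mul_left_eq_zero.mp ?_
      have h1 := hent 1 1
      have h2 := hent 0 0
      simp only [Matrix.one_apply_eq] at h1 h2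
      linear_combination h1 - h2
  have hdet : Θ.det = N := by
    have h2 := hent 0 0
    rw [htr, zero_mul, Matrix.one_apply_eq, mul_one] at h2
    linear_combination -h2
  obtain ⟨c, hc⟩ := disc_of_commute hu hcomm
  refine ⟨c, ?_⟩
  rw [hta, hdl, eq_neg_of_add_eq_zero_left htr, hdet] at hc
  push_cast
  linear_combination hc

end tate

variable {A B C d F : ℤ} {s : Qb} {M : Pts W →+ Pts W}

/-- **The curve is exceptional** for the field part of the discriminant. -/
theorem exceptional_of_cm (hd0 : d < 0)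
    (hD : B ^ 2 - 4 * A * C = F ^ 2 * d) (hF : F ≠ 0) (hs : s ^ 2 = (d : Qb))
    (hMM : ∀ P, M (M P) + B • M P + (A * C) • P = 0)
    (hflip : ∀ σ : GQ, σ s = -s → ∀ P, σ • M P = -M (σ • P) - B • (σ • P))
    (l : ℕ) [Fact l.Prime] (hgood : ∃ C' : VariableChange ℚ_[l],
      HasGoodReduction ℤ_[l] (C' • (ratCurve W).map (algebraMap ℚ ℚ_[l])))
    (hns : ¬ IsSquare (d : ZMod l)) : (ratCurve W).LFunction l = 0 := by
  classical
  have hl : l.Prime := Fact.out
  have hl2 : l ≠ 2 := by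
    rintro rfl
    exact hns (FA.ClassNumberOne.isSquare_zmod_two _)
  have hld : ¬ (l : ℤ) ∣ d := fun h =>
    hns ⟨0, by rw [mul_zero]; exact (ZMod.intCast_zmod_eq_zero_iff_dvd _ _).mpr h⟩
  obtain ⟨V, hV, hVgood⟩ := FA.SerreLarge.exists_goodModel (ratCurve W)
  have hlV := hVgood l hgood
  rw [FA.Root.LFunction_apply_prime _ V hV hl hlV]
  obtain ⟨P, hP⟩ := FA.Deform.exists_liesOverPrime hl
  obtain ⟨σ, hσ⟩ := FA.Deform.exists_isFrobeniusAt hl hP
  have hσs : σ s = -s := (sq_eq_sq_iff_eq_or_eq_neg.mp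
    (by rw [← map_pow, hs, map_intCast])).resolve_left fun e =>
      hns ((FA.CM.ClassOne.frobenius_fix_iff_int hl hl2 hld hP hσ hs).mp e)
  let M' : Pts W →+ Pts W := (2 : ℤ) • M + B • AddMonoidHom.id (Pts W)
  have hM' : ∀ Q, M' Q = (2 : ℤ) • M Q + B • Q := fun Q => rfl
  have hMM' : ∀ Q, M' (M' Q) = (F ^ 2 * d) • Q := fun Q => by
    rw [hM', hM', map_add, map_zsmul, map_zsmul,
      show M (M Q) = -(B • M Q) - (A * C) • Q by linear_combination (norm := abel) hMM Q, ← hD]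
    module
  have hneg : ∀ Q, σ • M' Q = -M' (σ • Q) := fun Q => by
    rw [hM', hM', FA.Local.gal_smul_add, smul_comm σ, smul_comm σ, hflip σ hσs]
    generalize M (σ • Q) = X
    generalize σ • Q = R
    module
  obtain ⟨m, hm, hmp⟩ := Nat.exists_infinite_primes
    ((V.apOfModel l).natAbs + (F ^ 2 * d).natAbs + l + 3)
  have := Fact.mk hmp
  have h := charpoly_galoisRep_of_model hV hl hlV (p := m) (by omega) hP hσ
  obtain ⟨htr, -⟩ := FA.CM.ClassOne.trace_and_relation (FA.EC.finrank_torsion (ratCurve W) m) h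
  have h0 := FA.CM.ClassOne.trace_eq_zero_of_anticommute
    (F := FA.CM.ClassOne.torsRep (ratCurve W) m σ)
    (M := FA.CM.ClassOne.torsEnd (ratCurve W) M' m) (c := ((F ^ 2 * d : ℤ) : ZMod m))
    (fun e => ?_) (fun e => ?_)
    (fun Q => by rw [Int.cast_smul_eq_zsmul]; exact Subtype.ext (hMM' Q.1))
    fun Q => Subtype.ext (hneg Q.1)
  · rw [htr, ZMod.intCast_zmod_eq_zero_iff_dvd] at h0
    by_contra hne
    have := Nat.le_of_dvd (Int.natAbs_pos.mpr hne) (Int.natCast_dvd.mp h0)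
    omega
  · rw [← Nat.cast_ofNat, ZMod.natCast_eq_zero_iff] at e
    have := Nat.le_of_dvd two_pos e
    omega
  · rw [ZMod.intCast_zmod_eq_zero_iff_dvd] at e
    have := Nat.le_of_dvd (Int.natAbs_pos.mpr (mul_ne_zero (pow_ne_zero 2 hF) hd0.ne))
      (Int.natCast_dvd.mp e)
    omega

/-- **The principal form takes the split primes**: `4 l = u² - F² d k²`. -/
theorem exists_principal_value (hd : Squarefree d) (hd0 : d < 0)
    (hD : B ^ 2 - 4 * A * C = F ^ 2 * d) (hF : F ≠ 0) (hs : s ^ 2 = (d : Qb))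
    (hMM : ∀ P, M (M P) + B • M P + (A * C) • P = 0)
    (hfix : ∀ σ : GQ, σ s = s → ∀ P, σ • M P = M (σ • P))
    (hflip : ∀ σ : GQ, σ s = -s → ∀ P, σ • M P = -M (σ • P) - B • (σ • P))
    (hns : ∀ p : ℕ, p.Prime → ∀ k : ℤ, ¬ ∀ P : Pts W, p • P = 0 → M P = k • P)
    (l : ℕ) (hl : l.Prime) (hl0 : 2 * W.Δ.natAbs * (F * d).natAbs < l)
    (hsq : IsSquare (d : ZMod l)) : ∃ u k : ℤ, u ^ 2 - F ^ 2 * d * k ^ 2 = 4 * l := by
  classical
  haveI := Fact.mk hl
  have hW : W.IsIntegralModelOf (ratCurve W) := ⟨1, one_smul _ _⟩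
  have hΔ := Δ_ne_zero_of_model hW
  have hFd : F * d ≠ 0 := mul_ne_zero hF hd0.ne
  have h1 : 1 ≤ W.Δ.natAbs := Int.natAbs_pos.mpr hΔ
  have h2 : 1 ≤ (F * d).natAbs := Int.natAbs_pos.mpr hFd
  have h12 := Nat.le_mul_of_pos_right (2 * W.Δ.natAbs) h2
  have hg : W.IsGoodPrimeFor l := fun h => by
    have := Nat.le_of_dvd h1 (Int.natCast_dvd.mp h)
    omega
  have hl2 : l ≠ 2 := by omega
  have hFl : ¬ (l : ℤ) ∣ F * d := fun h => by
    have := Nat.le_of_dvd h2 (Int.natCast_dvd.mp h)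
    have := Nat.le_mul_of_pos_left (F * d).natAbs (show 0 < 2 * W.Δ.natAbs by omega)
    omega
  have hgood := FA.Exceptional.exists_good_reduction hW l fun h => hg h
  obtain ⟨b, -, hb⟩ := (FA.Summary.exceptional_deuring (ratCurve W) hd (by omega)
    (fun m _ => exceptional_of_cm hd0 hD hF hs hMM hflip m) l hl2 hgood).2.2 hsq
  rw [FA.Root.LFunction_apply_prime _ W hW hl hg, abs_of_neg hd0] at hb
  obtain ⟨P, hP⟩ := FA.Deform.exists_liesOverPrime hl
  obtain ⟨σ, hσ⟩ := FA.Deform.exists_isFrobeniusAt hl hP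
  have hσs : σ s = s := (FA.CM.ClassOne.frobenius_fix_iff_int hl hl2
    (fun h => hFl (h.mul_left F)) hP hσ hs).mpr hsq
  suffices hFb : F ∣ b by
    obtain ⟨k, rfl⟩ := hFb
    exact ⟨W.apOfModel l, k, by linear_combination -hb⟩
  rw [← Int.natAbs_dvd, Int.natCast_dvd, Nat.dvd_iff_prime_pow_dvd_dvd]
  intro p i hp hpi
  rcases Nat.eq_zero_or_pos i with rfl | hi
  · simp
  haveI := Fact.mk hp
  have hpF : p ∣ F.natAbs := (dvd_pow_self p hi.ne').trans hpi
  have hlp : l ≠ p := fun e => hFl ((Int.natCast_dvd.mpr (e ▸ hpF)).mul_right d)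
  obtain ⟨T⟩ := exists_tateBasis (p := p) W
  have hdet := det_rep_frobenius T hl hP hlp hσ
  have htr := trace_of_equation_det T (a := W.apOfModel l) hl.ne_zero hdet fun n x hx => by
    have h := (frobenius_relations hl hP hlp hg hσ).1 n x hx
    linear_combination (norm := abel) h
  obtain ⟨c, hc⟩ := exists_disc_eq T M hMM (hns p hp) (hfix σ hσs) htr hdet
  have e1 : W.apOfModel l ^ 2 - 4 * (l : ℤ) = d * b ^ 2 := by linear_combination -hb
  rw [e1, ← mul_assoc 4 A C, hD] at hc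
  push_cast at hc
  have hd' : (d : ℤ_[p]) ≠ 0 := Int.cast_ne_zero.mpr hd0.ne
  have hbc : ((b : ℤ) : ℤ_[p]) ^ 2 = (c * (F : ℤ_[p])) ^ 2 :=
    mul_left_cancel₀ hd' (by linear_combination hc)
  obtain ⟨j, hj⟩ := Int.natCast_dvd.mpr hpi
  have hzero : PadicInt.toZModPow i ((b : ℤ) : ℤ_[p]) = 0 := by
    have hF0 : PadicInt.toZModPow i (F : ℤ_[p]) = 0 := by
      rw [map_intCast, ZMod.intCast_zmod_eq_zero_iff_dvd]
      exact ⟨j, hj⟩
    rcases sq_eq_sq_iff_eq_or_eq_neg.mp hbc with e | e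
    · rw [e, map_mul, hF0, mul_zero]
    · rw [e, map_neg, map_mul, hF0, mul_zero, neg_zero]
  rw [map_intCast, ZMod.intCast_zmod_eq_zero_iff_dvd] at hzero
  exact Int.natCast_dvd.mp hzero

end FA.ThirteenOrders

end
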